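import Fermat.Agent.S56.V.Count.Abstract

/-!
# S56 / V-COUNT : fixed points of `GL₂(K)` on `P¹(K) = OnePoint K`, the ratio homomorphism
-/

set_option autoImplicit false
set_option linter.unusedSectionVars false

namespace Fermat.Agent.S56.V.Count

open Matrix OnePoint Matrix.GeneralLinearGroup Polynomial

variable {K : Type*} [Field K] [DecidableEq K]

theorem smul_coe_eq_iff (g : GL (Fin 2) K) (c : K) :
    g • (c : OnePoint K) = c ↔ g 1 0 * (c * c) + (g 1 1 - g 0 0) * c + -g 0 1 = 0 := by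
  rw [← fixpointPolynomial_aeval_eq_zero_iff]
  simp [fixpointPolynomial, sq, sub_eq_add_neg]

theorem scalar_smul (g : GL (Fin 2) K) (hg : g.val ∈ Set.range (Matrix.scalar (Fin 2)))
    (ω : OnePoint K) : g • ω = ω := by
  obtain ⟨a, ha⟩ := hg
  have h00 : g 0 0 = a := by simp [← ha]
  have h01 : g 0 1 = 0 := by simp [← ha]
  have h10 : g 1 0 = 0 := by simp [← ha]
  have h11 : g 1 1 = a := by simp [← ha]
  cases ω with
  | infty => exact smul_infty_eq_self_iff.2 h10
  | coe c => rw [smul_coe_eq_iff, h00, h01, h10, h11]; ring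

theorem scalar_of_smul (g : GL (Fin 2) K) (hg : ∀ ω : OnePoint K, g • ω = ω) :
    g.val ∈ Set.range (Matrix.scalar (Fin 2)) := by
  have h10 : g 1 0 = 0 := smul_infty_eq_self_iff.1 (hg ∞)
  have h0 := (smul_coe_eq_iff g 0).1 (hg _)
  have h1 := (smul_coe_eq_iff g 1).1 (hg _)
  have h01 : g 0 1 = 0 := by simpa using h0
  have h11 : g 1 1 = g 0 0 := by
    rw [h10, h01] at h1
    simpa [sub_eq_zero] using h1
  refine ⟨g 0 0, ?_⟩
  ext i j
  fin_cases i <;> fin_cases j <;> simp [h10, h01, h11]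

theorem two_fixed [NeZero (2 : K)] (g : GL (Fin 2) K) (s : K) (hs : g.val.discr = s * s)
    (hs0 : s ≠ 0) :
    ∃ a b : OnePoint K, a ≠ b ∧ ∀ ω : OnePoint K, g • ω = ω ↔ ω = a ∨ ω = b := by
  have h2 : (2 : K) ≠ 0 := NeZero.ne _
  rw [discr_fin_two, trace_fin_two, det_fin_two] at hs
  by_cases hc : g 1 0 = 0
  · have had : g 1 1 - g 0 0 ≠ 0 := by
      intro h
      apply hs0
      have : s * s = 0 := by
        rw [← hs, hc]
        have : g 1 1 = g 0 0 := sub_eq_zero.1 h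
        rw [this]; ring
      exact mul_self_eq_zero.1 this
    refine ⟨∞, ((g 0 1 / (g 1 1 - g 0 0) : K) : OnePoint K), infty_ne_coe _, ?_⟩
    intro ω
    cases ω with
    | infty => simp [smul_infty_eq_self_iff, hc]
    | coe c =>
      rw [smul_coe_eq_iff, hc]
      simp only [coe_ne_infty, false_or, coe_eq_coe]
      rw [eq_div_iff had]
      constructor
      · intro h; linear_combination h
      · intro h; linear_combination h
  · have hd : discrim (g 1 0) (g 1 1 - g 0 0) (-g 0 1) = s * s := by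
      rw [← hs, discrim]; ring
    refine ⟨(((-(g 1 1 - g 0 0) + s) / (2 * g 1 0) : K) : OnePoint K),
      (((-(g 1 1 - g 0 0) - s) / (2 * g 1 0) : K) : OnePoint K), ?_, ?_⟩
    · rw [Ne, coe_eq_coe, div_left_inj' (mul_ne_zero h2 hc)]
      intro h
      apply hs0
      have : 2 * s = 0 := by linear_combination h
      exact (mul_eq_zero.1 this).resolve_left h2
    · intro ω
      cases ω with
      | infty => simp [smul_infty_eq_self_iff, hc]
      | coe c =>
        rw [smul_coe_eq_iff, quadratic_eq_zero_iff hc hd]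
        simp only [coe_eq_coe]

theorem existsUnique_of_isParabolic [NeZero (2 : K)] (g : GL (Fin 2) K) (h : g.IsParabolic) :
    ∃! ω : OnePoint K, g • ω = ω :=
  ⟨parabolicFixedPoint g, h.smul_eq_self_iff.2 rfl, fun _ hy => h.smul_eq_self_iff.1 hy⟩

theorem trichotomy [NeZero (2 : K)] (g : GL (Fin 2) K) (s : K) (hs : g.val.discr = s * s) :
    (∀ ω : OnePoint K, g • ω = ω) ∨ (∃! ω : OnePoint K, g • ω = ω) ∨
      (∃ a b : OnePoint K, a ≠ b ∧ ∀ ω : OnePoint K, g • ω = ω ↔ ω = a ∨ ω = b) := by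
  by_cases h1 : g.val ∈ Set.range (Matrix.scalar (Fin 2))
  · exact Or.inl (scalar_smul g h1)
  by_cases h2 : s = 0
  · exact Or.inr (Or.inl (existsUnique_of_isParabolic g ⟨h1, by rw [hs, h2, mul_zero]⟩))
  · exact Or.inr (Or.inr (two_fixed g s hs h2))

theorem isParabolic_of_existsUnique [NeZero (2 : K)] (g : GL (Fin 2) K) (s : K)
    (hs : g.val.discr = s * s) (h : ∃! ω : OnePoint K, g • ω = ω) : g.IsParabolic := by
  refine ⟨fun h1 => ?_, ?_⟩
  · have := h.unique (scalar_smul g h1 ∞) (scalar_smul g h1 ((0 : K) : OnePoint K))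
    exact infty_ne_coe _ this
  · by_contra h2
    have hs0 : s ≠ 0 := by
      rintro rfl
      exact h2 (by rw [hs, mul_zero])
    obtain ⟨a, b, hab, hfix⟩ := two_fixed g s hs hs0
    exact hab (h.unique ((hfix a).2 (Or.inl rfl)) ((hfix b).2 (Or.inr rfl)))

theorem pow_char_smul (p : ℕ) [Fact p.Prime] [CharP K p] [NeZero (2 : K)] (g : GL (Fin 2) K)
    (h : g.IsParabolic) (ω : OnePoint K) : g ^ p • ω = ω := by
  apply scalar_smul
  obtain ⟨a, n, hg, -, hn⟩ := isParabolic_iff_exists.1 h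
  refine ⟨a ^ p, ?_⟩
  rw [Units.val_pow_eq_pow_val, hg, add_pow_char_of_commute p
    (Matrix.scalar_commute a (fun r => mul_comm _ _) n),
    pow_eq_zero_of_le (Fact.out : p.Prime).two_le hn, add_zero, map_pow]

theorem diag_ne_zero (g : GL (Fin 2) K) (h : g 1 0 = 0) : g 0 0 ≠ 0 ∧ g 1 1 ≠ 0 := by
  have := g.det_ne_zero
  rw [det_fin_two, h, mul_zero, sub_zero] at this
  exact ⟨left_ne_zero_of_mul this, right_ne_zero_of_mul this⟩

variable (Γ : Subgroup (GL (Fin 2) K))

theorem stab_iff (g : Γ) : g ∈ MulAction.stabilizer Γ (∞ : OnePoint K) ↔ (g : GL (Fin 2) K) 1 0 = 0 := by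
  rw [MulAction.mem_stabilizer_iff, Subgroup.smul_def, smul_infty_eq_self_iff]

/-- the ratio homomorphism `(a b; 0 d) ↦ a / d` on the stabiliser of `∞` -/
noncomputable def ratioHom : MulAction.stabilizer Γ (∞ : OnePoint K) →* Kˣ :=
  MonoidHom.mk' (fun g => Units.mk0 ((g.1 : GL (Fin 2) K) 0 0 / (g.1 : GL (Fin 2) K) 1 1)
    (div_ne_zero (diag_ne_zero _ ((stab_iff Γ g.1).1 g.2)).1
      (diag_ne_zero _ ((stab_iff Γ g.1).1 g.2)).2)) (by
    intro g h
    apply Units.ext
    have hg := (stab_iff Γ g.1).1 g.2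
    have hh := (stab_iff Γ h.1).1 h.2
    simp only [Units.val_mk0, Units.val_mul, Subgroup.coe_mul, Matrix.mul_apply, Fin.sum_univ_two,
      hg, hh, mul_zero, zero_mul, add_zero, zero_add]
    rw [mul_div_mul_comm])

theorem ratioHom_apply (g : MulAction.stabilizer Γ (∞ : OnePoint K)) :
    ((ratioHom Γ g : Kˣ) : K) = (g.1 : GL (Fin 2) K) 0 0 / (g.1 : GL (Fin 2) K) 1 1 := rfl


/-- `{(a b; 0 a)} ∩ Γ` -/
noncomputable def kerSub : Subgroup Γ :=
  (ratioHom Γ).ker.map (MulAction.stabilizer Γ (∞ : OnePoint K)).subtype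

theorem mem_kerSub (g : Γ) : g ∈ kerSub Γ ↔
    (g : GL (Fin 2) K) 1 0 = 0 ∧ (g : GL (Fin 2) K) 0 0 = (g : GL (Fin 2) K) 1 1 := by
  unfold kerSub
  rw [Subgroup.mem_map]
  constructor
  · rintro ⟨x, hx, rfl⟩
    have h10 := (stab_iff Γ x.1).1 x.2
    refine ⟨h10, ?_⟩
    rw [MonoidHom.mem_ker] at hx
    have := congrArg Units.val hx
    rw [ratioHom_apply, Units.val_one, div_eq_one_iff_eq (diag_ne_zero _ h10).2] at this
    exact this
  · rintro ⟨h10, h⟩
    refine ⟨⟨g, (stab_iff Γ g).2 h10⟩, ?_, rfl⟩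
    rw [MonoidHom.mem_ker]
    apply Units.ext
    rw [ratioHom_apply, Units.val_one, div_eq_one_iff_eq (diag_ne_zero _ h10).2]
    exact h

theorem card_stab :
    Nat.card (MulAction.stabilizer Γ (∞ : OnePoint K)) =
      Nat.card (kerSub Γ) * Nat.card (ratioHom Γ).range := by
  unfold kerSub
  rw [Subgroup.card_map_of_injective (Subgroup.subtype_injective _), ← Subgroup.index_ker,
    Subgroup.card_mul_index]

theorem kerSub_iff [NeZero (2 : K)] (hsp : ∀ g ∈ Γ, ∃ s : K, g.val.discr = s * s) (g : Γ) :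
    g ∈ kerSub Γ ↔ g • (∞ : OnePoint K) = ∞ ∧
      ((∀ ω : OnePoint K, g • ω = ω) ∨ ∃! ω : OnePoint K, g • ω = ω) := by
  rw [mem_kerSub]
  simp only [Subgroup.smul_def, smul_infty_eq_self_iff]
  refine and_congr_right fun h10 => ?_
  constructor
  · intro h
    by_cases h01 : (g : GL (Fin 2) K) 0 1 = 0
    · left
      apply scalar_smul
      refine ⟨(g : GL (Fin 2) K) 0 0, ?_⟩
      ext i j
      fin_cases i <;> fin_cases j <;> simp [h10, h01, h]
    · right
      exact existsUnique_of_isParabolic _ ((GeneralLinearGroup.isParabolic_iff_of_upperTriangular h10).2 ⟨h, h01⟩)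
  · rintro (h | h)
    · obtain ⟨a, ha⟩ := scalar_of_smul _ h
      simp [← ha]
    · obtain ⟨s, hs⟩ := hsp g g.2
      exact ((GeneralLinearGroup.isParabolic_iff_of_upperTriangular h10).1 (isParabolic_of_existsUnique _ s hs h)).1

theorem upperRight_fix (x : K) (hx : x ≠ 0) (ω : OnePoint K) :
    (upperRightHom x : GL (Fin 2) K) • ω = ω ↔ ω = ∞ := by
  cases ω with
  | infty => simp [smul_infty_eq_self_iff, upperRightHom]
  | coe c =>
    rw [smul_coe_eq_iff]
    simp [upperRightHom, hx]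

theorem card_le_of [Finite K] (p : ℕ) [Fact p.Prime] [CharP K p] [NeZero (2 : K)]
    (hsp : ∀ g ∈ Γ, ∃ s : K, g.val.discr = s * s)
    (X : Set K) (hX : ∀ x ∈ X, (upperRightHom x : GL (Fin 2) K) ∈ Γ) (x₀ : K) (hx₀ : x₀ ∈ X)
    (hx₀' : x₀ ≠ 0) (hmove : ∃ g ∈ Γ, g 1 0 ≠ 0) :
    Nat.card X ≤ 2 * Nat.card (ratioHom Γ).range + 1 := by
  have : Finite (OnePoint K) := inferInstanceAs (Finite (Option K))
  refine count_final (Γ := Γ) (Ω := OnePoint K) p ∞ (kerSub Γ) _ _ ?_ ?_ (kerSub_iff Γ hsp)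
    (card_stab Γ) ?_ ?_ ?_ ?_
  · have h1 : Nat.card (OnePoint K) = Nat.card K + 1 := Finite.card_option
    have h2 : 1 < Nat.card K := Finite.one_lt_card
    omega
  · intro g
    obtain ⟨s, hs⟩ := hsp g g.2
    exact trichotomy (g : GL (Fin 2) K) s hs
  · rw [← Nat.card_prod]
    have hZ : ∀ ε : fixingSubgroup Γ (Set.univ : Set (OnePoint K)), ∀ ω : OnePoint K,
        (ε : Γ) • ω = ω := by
      intro ε ω
      exact (mem_fixingSubgroup_iff Γ).1 ε.2 ω (Set.mem_univ _)
    have hmem : ∀ y : fixingSubgroup Γ (Set.univ : Set (OnePoint K)) × X,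
        (y.1 : Γ) * ⟨upperRightHom y.2.1, hX y.2.1 y.2.2⟩ ∈ kerSub Γ := by
      intro y
      refine (kerSub Γ).mul_mem ((kerSub_iff Γ hsp _).2 ⟨hZ y.1 _, Or.inl (hZ y.1)⟩) ?_
      rw [mem_kerSub]
      simp [upperRightHom]
    refine Nat.card_le_card_of_injective (fun y => (⟨_, hmem y⟩ : kerSub Γ)) ?_
    rintro ⟨ε, x⟩ ⟨ε', x'⟩ h
    have h1 : ((ε : Γ) : GL (Fin 2) K) * upperRightHom x.1
        = ((ε' : Γ) : GL (Fin 2) K) * upperRightHom x'.1 :=
      congrArg (fun t : kerSub Γ => ((t : Γ) : GL (Fin 2) K)) h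
    obtain ⟨a, ha⟩ := scalar_of_smul _ (hZ ε)
    obtain ⟨a', ha'⟩ := scalar_of_smul _ (hZ ε')
    have h2 := congrArg Units.val h1
    rw [Units.val_mul, Units.val_mul, ← ha, ← ha'] at h2
    have h00 := congrFun (congrFun h2 0) 0
    have h01 := congrFun (congrFun h2 0) 1
    simp [upperRightHom, Matrix.mul_apply, Fin.sum_univ_two] at h00 h01
    subst h00
    have ha0 : a ≠ 0 := by
      have := (diag_ne_zero ((ε : Γ) : GL (Fin 2) K) (by simp [← ha])).1
      simpa [← ha] using this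
    have hx : x = x' := Subtype.ext (mul_left_cancel₀ ha0 h01)
    have hε : ε = ε' := Subtype.ext (Subtype.ext (Units.ext (ha.symm.trans ha')))
    rw [hx, hε]
  · intro g hg ω
    obtain ⟨s, hs⟩ := hsp g g.2
    exact pow_char_smul p (g : GL (Fin 2) K) (isParabolic_of_existsUnique _ s hs hg) ω
  · exact ⟨⟨upperRightHom x₀, hX x₀ hx₀⟩, fun ω => upperRight_fix x₀ hx₀' ω⟩
  · obtain ⟨g, hg, h10⟩ := hmove
    refine ⟨⟨g, hg⟩, fun h => h10 ?_⟩
    exact smul_infty_eq_self_iff.1 h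

end Fermat.Agent.S56.V.Count
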