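import Mathlib

/-!
# S56 / V-COUNT : the abstract counting lemma (finite group acting on a finite set)
-/

set_option autoImplicit false
set_option linter.unusedSectionVars false

namespace Fermat.Agent.S56.V.Count

open MulAction Finset

section arith

theorem arithA (l z q e N Uc D : ℕ) (hz : 1 ≤ z) (hl : 2 ≤ l) (he : 1 ≤ e)
    (hN : N = l * (z * q * e)) (hU : Uc + l * z = l * (z * q)) (hD : D + Uc + 2 * z = 2 * N)
    (hDL : D + z * l = N) : False := by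
  have h1 : l * (z * q) ≤ l * (z * q * e) := by
    apply Nat.mul_le_mul_left
    exact Nat.le_mul_of_pos_right _ he
  have h2 : 2 * z ≤ l * z := Nat.mul_le_mul_right _ hl
  have h3 : z * l = l * z := mul_comm _ _
  omega

theorem arithB2 (l z q N Uc D n1 n2 a1 a2 D0 D1 D2 : ℕ) (hz : 1 ≤ z) (hq : 2 ≤ q)
    (hU : Uc + l * z = l * (z * q)) (hD : D + Uc + 2 * z = 2 * N)
    (hD0 : D0 + z * l = N) (hD1 : D1 + z * n1 = N) (hD2 : D2 + z * n2 = N)
    (h1 : n1 * (z * a1) = N) (h2 : n2 * (z * a2) = N) (ha1 : 2 ≤ a1) (ha2 : 2 ≤ a2)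
    (hle : D0 + D1 + D2 ≤ D) : False := by
  have e1 : 2 * (z * n1) ≤ N := by
    rw [← h1]
    calc 2 * (z * n1) = n1 * (z * 2) := by ring
      _ ≤ n1 * (z * a1) := by gcongr
  have e2 : 2 * (z * n2) ≤ N := by
    rw [← h2]
    calc 2 * (z * n2) = n2 * (z * 2) := by ring
      _ ≤ n2 * (z * a2) := by gcongr
  have e3 : l * (z * 2) ≤ l * (z * q) := by gcongr
  have e4 : l * (z * 2) = 2 * (l * z) := by ring
  have e5 : z * l = l * z := mul_comm _ _
  omega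

theorem arithB1 (l z q e N Uc D n1 a1 D0 D1 : ℕ) (hz : 1 ≤ z) (hl : 2 ≤ l) (he : 1 ≤ e)
    (hN : N = l * (z * q * e))
    (hU : Uc + l * z = l * (z * q)) (hD : D + Uc + 2 * z = 2 * N)
    (hD0 : D0 + z * l = N) (hD1 : D1 + z * n1 = N) 
    (h1 : n1 * (z * a1) = N) 
    (hle : D0 + D1 = D) : q ≤ 2 * e + 1 := by
  -- `l q + 2 = 2 l + n1`
  have e1 : z * (l * q + 2) = z * (2 * l + n1) := by
    have e5 : z * l = l * z := mul_comm _ _
    have e6 : z * (l * q + 2) = l * (z * q) + 2 * z := by ring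
    have e7 : z * (2 * l + n1) = 2 * (l * z) + z * n1 := by ring
    omega
  have e2 : l * q + 2 = 2 * l + n1 := Nat.eq_of_mul_eq_mul_left hz e1
  have e3 : z * (n1 * a1) = z * (l * q * e) := by
    calc z * (n1 * a1) = n1 * (z * a1) := by ring
      _ = N := h1
      _ = l * (z * q * e) := hN
      _ = z * (l * q * e) := by ring
  have e4 : n1 * a1 = l * q * e := Nat.eq_of_mul_eq_mul_left hz e3
  by_contra hcon
  push Not at hcon
  -- q ≥ 2e+2
  have e5 : l * (2 * e + 2) ≤ l * q := Nat.mul_le_mul_left _ hcon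
  have e6 : 2 * l * e + 2 ≤ n1 := by nlinarith
  -- n1 * a1 + 2 e = (n1 + 2 l) e
  have e7 : n1 * a1 + 2 * e = n1 * e + 2 * l * e := by
    have : (l * q + 2) * e = (2 * l + n1) * e := by rw [e2]
    nlinarith
  -- a1 > e
  have e8 : e < a1 := by
    by_contra h
    push Not at h
    have : n1 * a1 ≤ n1 * e := Nat.mul_le_mul_left _ h
    have : 2 * e * 2 ≤ 2 * e * l := Nat.mul_le_mul_left _ hl
    nlinarith
  have e9 : n1 * (e + 1) ≤ n1 * a1 := Nat.mul_le_mul_left _ e8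
  nlinarith

end arith

section basics

variable (Γ Ω : Type*) [Group Γ] [MulAction Γ Ω] [Fintype Γ] [Fintype Ω] [DecidableEq Ω]
  [DecidableEq Γ]

/-- number of fixed points of `g` -/
def fx (g : Γ) : ℕ := #{ω : Ω | g • ω = ω}

/-- order of the stabiliser of `ω` -/
def st (ω : Ω) : ℕ := #{g : Γ | g • ω = ω}

/-- the orbit as a finset -/
def orb (ω : Ω) : Finset Ω := {x : Ω | ∃ g : Γ, g • ω = x}

variable {Γ Ω}

theorem sum_fx_eq_sum_st : ∑ g : Γ, fx Γ Ω g = ∑ ω : Ω, st Γ Ω ω :=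
  Finset.sum_card_bipartiteAbove_eq_sum_card_bipartiteBelow (fun (g : Γ) (ω : Ω) => g • ω = ω)

theorem fx_conj (γ g : Γ) : fx Γ Ω (γ * g * γ⁻¹) = fx Γ Ω g := by
  unfold fx
  symm
  refine Finset.card_equiv (MulAction.toPerm γ) fun ω => ?_
  simp only [mem_filter, mem_univ, true_and, MulAction.toPerm_apply]
  rw [mul_smul, mul_smul, inv_smul_smul, smul_left_cancel_iff]

theorem st_smul (γ : Γ) (ω : Ω) : st Γ Ω (γ • ω) = st Γ Ω ω := by
  unfold st
  symm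
  refine Finset.card_equiv (MulAut.conj γ).toEquiv fun g => ?_
  simp only [mem_filter, mem_univ, true_and, MulEquiv.toEquiv_eq_coe, MulEquiv.coe_toEquiv,
    MulAut.conj_apply]
  rw [mul_smul, mul_smul, inv_smul_smul, smul_left_cancel_iff]

theorem mem_orb {ω x : Ω} : x ∈ orb Γ Ω ω ↔ ∃ g : Γ, g • ω = x := by
  simp [orb]

theorem self_mem_orb (ω : Ω) : ω ∈ orb Γ Ω ω := mem_orb.2 ⟨1, one_smul _ _⟩

theorem card_orb_mul_st (ω : Ω) : #(orb Γ Ω ω) * st Γ Ω ω = Fintype.card Γ := by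
  classical
  have h := MulAction.card_orbit_mul_card_stabilizer_eq_card_group Γ ω
  rw [← h]
  congr 1
  · rw [← Fintype.card_coe]
    refine Fintype.card_congr (Equiv.subtypeEquivRight fun x => ?_)
    rw [mem_orb]; rfl
  · unfold st
    rw [← Fintype.card_coe]
    refine Fintype.card_congr (Equiv.subtypeEquivRight fun x => ?_)
    simp [MulAction.mem_stabilizer_iff]

theorem sum_orb_st (ω : Ω) : ∑ x ∈ orb Γ Ω ω, st Γ Ω x = Fintype.card Γ := by
  rw [← card_orb_mul_st (Γ := Γ) ω, Finset.sum_congr rfl (g := fun _ => st Γ Ω ω), Finset.sum_const,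
    smul_eq_mul]
  intro x hx
  obtain ⟨g, rfl⟩ := mem_orb.1 hx
  exact st_smul g ω

theorem orb_disjoint {ω ω' : Ω} (h : ω' ∉ orb Γ Ω ω) : Disjoint (orb Γ Ω ω) (orb Γ Ω ω') := by
  rw [Finset.disjoint_left]
  intro x hx hx'
  obtain ⟨g, rfl⟩ := mem_orb.1 hx
  obtain ⟨g', hg'⟩ := mem_orb.1 hx'
  apply h
  refine mem_orb.2 ⟨g'⁻¹ * g, ?_⟩
  rw [mul_smul, ← hg', inv_smul_smul]

theorem sum_fx_add (hΩ : 3 ≤ Fintype.card Ω)
    (htri : ∀ g : Γ, (∀ ω : Ω, g • ω = ω) ∨ fx Γ Ω g = 1 ∨ fx Γ Ω g = 2) :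
    ∑ g : Γ, fx Γ Ω g + #{g : Γ | fx Γ Ω g = 1} + 2 * #{g : Γ | ∀ ω : Ω, g • ω = ω}
      = #{g : Γ | ∀ ω : Ω, g • ω = ω} * Fintype.card Ω + 2 * Fintype.card Γ := by
  have key : ∀ g : Γ, fx Γ Ω g + (if fx Γ Ω g = 1 then 1 else 0)
      + 2 * (if (∀ ω : Ω, g • ω = ω) then 1 else 0)
      = (if (∀ ω : Ω, g • ω = ω) then 1 else 0) * Fintype.card Ω + 2 := by
    intro g
    by_cases hg : ∀ ω : Ω, g • ω = ω
    · have h1 : fx Γ Ω g = Fintype.card Ω := by
        unfold fx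
        rw [Finset.filter_true_of_mem (fun ω _ => hg ω), Finset.card_univ]
      rw [if_pos hg, h1, if_neg (by omega)]
      omega
    · rw [if_neg hg]
      rcases htri g with h | h | h
      · exact absurd h hg
      · rw [h]; simp
      · rw [h]; simp
  have := Finset.sum_congr (rfl : (Finset.univ : Finset Γ) = Finset.univ) (fun g _ => key g)
  rw [Finset.sum_add_distrib, Finset.sum_add_distrib, Finset.sum_add_distrib, ← Finset.mul_sum,
    ← Finset.sum_mul, ← Finset.card_filter, ← Finset.card_filter, Finset.sum_const,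
    Finset.card_univ, smul_eq_mul] at this
  rw [this]; ring

theorem card_U_eq (o : Ω)
    (hL : ∀ g : Γ, fx Γ Ω g = 1 → ∀ ω : Ω, g • ω = ω → ω ∈ orb Γ Ω o) :
    #{g : Γ | fx Γ Ω g = 1} = #(orb Γ Ω o) * #{g : Γ | g • o = o ∧ fx Γ Ω g = 1} := by
  have h := Finset.sum_card_bipartiteAbove_eq_sum_card_bipartiteBelow
    (fun (g : Γ) (ω : Ω) => g • ω = ω) (s := ({g : Γ | fx Γ Ω g = 1} : Finset Γ))
    (t := orb Γ Ω o)
  have hl : ∑ a ∈ ({g : Γ | fx Γ Ω g = 1} : Finset Γ),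
      #(Finset.bipartiteAbove (fun (g : Γ) (ω : Ω) => g • ω = ω) (orb Γ Ω o) a)
      = #{g : Γ | fx Γ Ω g = 1} := by
    rw [Finset.card_eq_sum_ones]
    refine Finset.sum_congr rfl ?_
    intro g hg
    have hg1 : fx Γ Ω g = 1 := by simpa using hg
    rw [← hg1]
    unfold fx Finset.bipartiteAbove
    congr 1
    ext ω
    simp only [mem_filter, mem_univ, true_and, and_iff_right_iff_imp]
    exact hL g hg1 ω
  have hr : ∑ b ∈ orb Γ Ω o,
      #(Finset.bipartiteBelow (fun (g : Γ) (ω : Ω) => g • ω = ω)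
        ({g : Γ | fx Γ Ω g = 1} : Finset Γ) b)
      = #(orb Γ Ω o) * #{g : Γ | g • o = o ∧ fx Γ Ω g = 1} := by
    rw [← smul_eq_mul, ← Finset.sum_const]
    refine Finset.sum_congr rfl ?_
    intro ω hω
    obtain ⟨γ, rfl⟩ := mem_orb.1 hω
    symm
    refine Finset.card_equiv (MulAut.conj γ).toEquiv fun g => ?_
    simp only [mem_filter, mem_univ, true_and, MulEquiv.toEquiv_eq_coe, MulEquiv.coe_toEquiv,
      MulAut.conj_apply, Finset.bipartiteBelow, fx_conj]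
    rw [mul_smul, mul_smul, inv_smul_smul, smul_left_cancel_iff, and_comm]
  rw [← hl, h, hr]

theorem card_Z_dvd_st (ω : Ω) : #{g : Γ | ∀ ω : Ω, g • ω = ω} ∣ st Γ Ω ω := by
  classical
  have h : fixingSubgroup Γ (Set.univ : Set Ω) ≤ MulAction.stabilizer Γ ω := by
    intro g hg
    rw [mem_fixingSubgroup_iff] at hg
    exact hg ω (Set.mem_univ _)
  have h2 := Subgroup.card_dvd_of_le h
  rw [Nat.card_eq_fintype_card, Nat.card_eq_fintype_card] at h2
  convert h2 using 1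
  · rw [← Fintype.card_coe]
    refine Fintype.card_congr (Equiv.subtypeEquivRight fun x => ?_)
    simp [mem_fixingSubgroup_iff]
  · unfold st
    rw [← Fintype.card_coe]
    refine Fintype.card_congr (Equiv.subtypeEquivRight fun x => ?_)
    simp [MulAction.mem_stabilizer_iff]

theorem st_pos (ω : Ω) : 0 < st Γ Ω ω :=
  Finset.card_pos.2 ⟨1, by simp⟩

theorem card_Z_pos : 0 < #{g : Γ | ∀ ω : Ω, g • ω = ω} :=
  Finset.card_pos.2 ⟨1, by simp⟩

theorem sum_d_add (z : ℕ) (hz : ∀ ω : Ω, z ≤ st Γ Ω ω) (s : Finset Ω) :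
    ∑ x ∈ s, (st Γ Ω x - z) + z * #s = ∑ x ∈ s, st Γ Ω x := by
  rw [mul_comm, ← smul_eq_mul, ← Finset.sum_const, ← Finset.sum_add_distrib]
  exact Finset.sum_congr rfl fun x _ => Nat.sub_add_cancel (hz x)

theorem count_main (o : Ω) (z q e : ℕ)
    (hΩ : 3 ≤ Fintype.card Ω)
    (htri : ∀ g : Γ, (∀ ω : Ω, g • ω = ω) ∨ fx Γ Ω g = 1 ∨ fx Γ Ω g = 2)
    (hz : #{g : Γ | ∀ ω : Ω, g • ω = ω} = z)
    (hB : st Γ Ω o = z * q * e)
    (hU : #{g : Γ | g • o = o ∧ fx Γ Ω g = 1} + z = z * q)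
    (hL : ∀ g : Γ, fx Γ Ω g = 1 → ∀ ω : Ω, g • ω = ω → ω ∈ orb Γ Ω o)
    (hmove : ∃ g : Γ, g • o ≠ o) :
    q ≤ 2 * e + 1 := by
  by_cases hq : q ≤ 1
  · omega
  have hq2 : 2 ≤ q := by omega
  have hz1 : 1 ≤ z := hz ▸ card_Z_pos
  have he : 1 ≤ e := by
    rcases Nat.eq_zero_or_pos e with h | h
    · have := st_pos (Γ := Γ) o
      rw [hB, h] at this
      simp at this
    · exact h
  have hdvd : ∀ ω : Ω, z ∣ st Γ Ω ω := fun ω => hz ▸ card_Z_dvd_st ω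
  have hzle : ∀ ω : Ω, z ≤ st Γ Ω ω := fun ω => Nat.le_of_dvd (st_pos ω) (hdvd ω)
  set l := #(orb Γ Ω o) with hl
  set N := Fintype.card Γ with hNdef
  have hl2 : 2 ≤ l := by
    obtain ⟨g, hg⟩ := hmove
    have : ({o, g • o} : Finset Ω) ⊆ orb Γ Ω o := by
      intro x hx
      simp only [mem_insert, mem_singleton] at hx
      rcases hx with rfl | rfl
      · exact self_mem_orb _
      · exact mem_orb.2 ⟨g, rfl⟩
    have h2 := Finset.card_le_card this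
    rwa [Finset.card_pair (Ne.symm hg)] at h2
  have hN : N = l * (z * q * e) := by rw [← hB]; exact (card_orb_mul_st o).symm
  set Uc := #{g : Γ | fx Γ Ω g = 1} with hUc
  have hUc' : Uc + l * z = l * (z * q) := by
    rw [hUc, card_U_eq o hL, ← hU]; ring
  set D := ∑ x : Ω, (st Γ Ω x - z) with hDdef
  have hD : D + Uc + 2 * z = 2 * N := by
    have h1 := sum_fx_add hΩ htri
    rw [hz, sum_fx_eq_sum_st, ← sum_d_add z hzle Finset.univ, Finset.card_univ] at h1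
    omega
  have horb : ∀ ω : Ω, ∑ x ∈ orb Γ Ω ω, (st Γ Ω x - z) + z * #(orb Γ Ω ω) = N := by
    intro ω
    rw [sum_d_add z hzle, sum_orb_st]
  have hbig : ∀ ω : Ω, st Γ Ω ω ≠ z → ∃ a, 2 ≤ a ∧ #(orb Γ Ω ω) * (z * a) = N := by
    intro ω hω
    obtain ⟨a, ha⟩ := hdvd ω
    refine ⟨a, ?_, by rw [← ha]; exact card_orb_mul_st ω⟩
    rcases a with _ | _ | a
    · have := st_pos (Γ := Γ) ω
      rw [ha] at this; simp at this
    · exact absurd (by simpa using ha) hω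
    · omega
  by_cases hA : ∀ ω : Ω, ω ∉ orb Γ Ω o → st Γ Ω ω = z
  · exfalso
    have hDeq : ∑ x ∈ orb Γ Ω o, (st Γ Ω x - z) = D := by
      apply Finset.sum_subset (Finset.subset_univ _)
      intro x _ hx
      rw [hA x hx, Nat.sub_self]
    have := horb o
    rw [hDeq] at this
    exact arithA l z q e N Uc D hz1 hl2 he hN hUc' hD this
  push Not at hA
  obtain ⟨ω₁, hω₁, hs₁⟩ := hA
  obtain ⟨a₁, ha₁, hn₁⟩ := hbig ω₁ hs₁
  have hdis1 := orb_disjoint (Γ := Γ) hω₁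
  by_cases hB1 : ∀ ω : Ω, ω ∉ orb Γ Ω o → ω ∉ orb Γ Ω ω₁ → st Γ Ω ω = z
  · have hDeq : ∑ x ∈ orb Γ Ω o ∪ orb Γ Ω ω₁, (st Γ Ω x - z) = D := by
      apply Finset.sum_subset (Finset.subset_univ _)
      intro x _ hx
      rw [Finset.mem_union, not_or] at hx
      rw [hB1 x hx.1 hx.2, Nat.sub_self]
    rw [Finset.sum_union hdis1] at hDeq
    exact arithB1 l z q e N Uc D _ a₁ _ _ hz1 hl2 he hN hUc' hD (horb o) (horb ω₁) hn₁ hDeq
  push Not at hB1
  obtain ⟨ω₂, hω₂, hω₂', hs₂⟩ := hB1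
  obtain ⟨a₂, ha₂, hn₂⟩ := hbig ω₂ hs₂
  exfalso
  have hdis2 : Disjoint (orb Γ Ω o ∪ orb Γ Ω ω₁) (orb Γ Ω ω₂) := by
    rw [Finset.disjoint_union_left]
    exact ⟨orb_disjoint hω₂, orb_disjoint hω₂'⟩
  have hDle : ∑ x ∈ (orb Γ Ω o ∪ orb Γ Ω ω₁) ∪ orb Γ Ω ω₂, (st Γ Ω x - z) ≤ D :=
    Finset.sum_le_sum_of_subset (Finset.subset_univ _)
  rw [Finset.sum_union hdis2, Finset.sum_union hdis1] at hDle
  exact arithB2 l z q N Uc D _ _ a₁ a₂ _ _ _ hz1 hq2 hUc' hD (horb o) (horb ω₁) (horb ω₂) hn₁ hn₂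
    ha₁ ha₂ hDle

end basics

theorem card_orbit_modEq {Γ Ω : Type*} [Group Γ] [MulAction Γ Ω] [Finite Ω] (p : ℕ) [Fact p.Prime]
    (o : Ω) (g : Γ) (hgp : ∀ ω : Ω, g ^ p • ω = ω) :
    Nat.card (MulAction.orbit Γ o) ≡
      Nat.card {x : MulAction.orbit Γ o // g • x = x} [MOD p] := by
  classical
  have : Fintype (MulAction.orbit Γ o) := Fintype.ofFinite _
  have h : (MulAction.toEndHom g : Function.End (MulAction.orbit Γ o)) ^ p ^ 1 = 1 := by
    rw [pow_one, ← map_pow]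
    funext x
    exact Subtype.ext (hgp x)
  have := Equiv.Perm.card_fixedPoints_modEq h
  rw [Nat.card_eq_fintype_card, Nat.card_eq_fintype_card]
  have e : Fintype.card {x : MulAction.orbit Γ o // g • x = x}
      = Fintype.card (Function.fixedPoints
        (MulAction.toEndHom g : Function.End (MulAction.orbit Γ o))) :=
    Fintype.card_congr (Equiv.subtypeEquivRight fun x => Iff.rfl)
  rw [e]
  convert this

theorem exists_fixed_mem_orbit {Γ Ω : Type*} [Group Γ] [MulAction Γ Ω] [Finite Ω] (p : ℕ)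
    [Fact p.Prime] (o : Ω) (g₀ g : Γ)
    (h₀ : ∀ ω : Ω, g₀ • ω = ω ↔ ω = o)
    (h₀p : ∀ ω : Ω, g₀ ^ p • ω = ω)
    (hgp : ∀ ω : Ω, g ^ p • ω = ω) :
    ∃ ω ∈ MulAction.orbit Γ o, g • ω = ω := by
  have h1 := card_orbit_modEq p o g₀ h₀p
  have h2 := card_orbit_modEq p o g hgp
  have h3 : Nat.card {x : MulAction.orbit Γ o // g₀ • x = x} = 1 := by
    rw [Nat.card_eq_one_iff_unique]
    refine ⟨⟨?_⟩, ⟨⟨⟨o, MulAction.mem_orbit_self o⟩, Subtype.ext ((h₀ o).2 rfl)⟩⟩⟩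
    rintro ⟨⟨a, ha⟩, ha'⟩ ⟨⟨b, hb⟩, hb'⟩
    have ea : a = o := (h₀ a).1 (congrArg Subtype.val ha')
    have eb : b = o := (h₀ b).1 (congrArg Subtype.val hb')
    subst ea; subst eb; rfl
  by_contra hcon
  push Not at hcon
  have h4 : Nat.card {x : MulAction.orbit Γ o // g • x = x} = 0 := by
    have : IsEmpty {x : MulAction.orbit Γ o // g • x = x} :=
      ⟨fun x => hcon x.1.1 x.1.2 (congrArg Subtype.val x.2)⟩
    exact Nat.card_of_isEmpty
  rw [h3] at h1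
  rw [h4] at h2
  have h5 : 1 ≡ 0 [MOD p] := h1.symm.trans h2
  have h6 : p ∣ 1 := (Nat.modEq_zero_iff_dvd).1 h5
  exact (Fact.out : p.Prime).one_lt.ne' (Nat.dvd_one.1 h6)

theorem fx_eq_one_iff {Γ Ω : Type*} [Group Γ] [MulAction Γ Ω] [Fintype Γ] [Fintype Ω] [DecidableEq Ω]
    [DecidableEq Γ] (g : Γ) : fx Γ Ω g = 1 ↔ ∃! ω : Ω, g • ω = ω := by
  unfold fx
  rw [Finset.card_eq_one]
  constructor
  · rintro ⟨a, ha⟩
    refine ⟨a, ?_, ?_⟩
    · have : a ∈ ({ω : Ω | g • ω = ω} : Finset Ω) := by rw [ha]; simp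
      simpa using this
    · intro y hy
      have : y ∈ ({ω : Ω | g • ω = ω} : Finset Ω) := by simpa using hy
      rw [ha] at this
      simpa using this
  · rintro ⟨a, ha, ha'⟩
    refine ⟨a, ?_⟩
    ext y
    simp only [mem_filter, mem_univ, true_and, mem_singleton]
    exact ⟨fun h => ha' y h, fun h => h ▸ ha⟩

theorem fx_eq_two_of {Γ Ω : Type*} [Group Γ] [MulAction Γ Ω] [Fintype Γ] [Fintype Ω] [DecidableEq Ω]
    [DecidableEq Γ] (g : Γ) (h : ∃ a b : Ω, a ≠ b ∧ ∀ ω : Ω, g • ω = ω ↔ ω = a ∨ ω = b) :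
    fx Γ Ω g = 2 := by
  obtain ⟨a, b, hab, h⟩ := h
  unfold fx
  rw [Finset.card_eq_two]
  refine ⟨a, b, hab, ?_⟩
  ext y
  simp [h]

theorem count_final {Γ Ω : Type*} [Group Γ] [MulAction Γ Ω] [Finite Γ] [Finite Ω] (p : ℕ)
    [Fact p.Prime] (o : Ω) (K : Subgroup Γ) (q e : ℕ)
    (hΩ : 3 ≤ Nat.card Ω)
    (htri : ∀ g : Γ, (∀ ω : Ω, g • ω = ω) ∨ (∃! ω : Ω, g • ω = ω) ∨
      (∃ a b : Ω, a ≠ b ∧ ∀ ω : Ω, g • ω = ω ↔ ω = a ∨ ω = b))
    (hK : ∀ g : Γ, g ∈ K ↔ g • o = o ∧ ((∀ ω : Ω, g • ω = ω) ∨ ∃! ω : Ω, g • ω = ω))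
    (hB : Nat.card (MulAction.stabilizer Γ o) = Nat.card K * e)
    (hq : Nat.card (fixingSubgroup Γ (Set.univ : Set Ω)) * q ≤ Nat.card K)
    (hpow : ∀ g : Γ, (∃! ω : Ω, g • ω = ω) → ∀ ω : Ω, g ^ p • ω = ω)
    (hg₀ : ∃ g₀ : Γ, ∀ ω : Ω, g₀ • ω = ω ↔ ω = o)
    (hmove : ∃ g : Γ, g • o ≠ o) :
    q ≤ 2 * e + 1 := by
  classical
  have : Fintype Γ := Fintype.ofFinite Γ
  have : Fintype Ω := Fintype.ofFinite Ω
  set Z := fixingSubgroup Γ (Set.univ : Set Ω) with hZ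
  have hmemZ : ∀ g : Γ, g ∈ Z ↔ ∀ ω : Ω, g • ω = ω := by
    intro g; simp [hZ, mem_fixingSubgroup_iff]
  have hZK : Z ≤ K := by
    intro g hg
    rw [hmemZ] at hg
    exact (hK g).2 ⟨hg o, Or.inl hg⟩
  obtain ⟨q', hq'⟩ := Subgroup.card_dvd_of_le hZK
  have hzpos : 0 < Nat.card Z := Nat.card_pos
  have hqq' : q ≤ q' := by
    rw [hq'] at hq
    exact Nat.le_of_mul_le_mul_left hq hzpos
  refine hqq'.trans ?_
  have two_pts : ∀ g : Γ, (∀ ω : Ω, g • ω = ω) → ¬ ∃! ω : Ω, g • ω = ω := by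
    intro g hg ⟨a, _, ha⟩
    have : Nat.card Ω ≤ 1 := by
      rw [Nat.card_eq_fintype_card, Fintype.card_le_one_iff]
      intro x y
      rw [ha x (hg x), ha y (hg y)]
    omega
  have hzc : #{g : Γ | ∀ ω : Ω, g • ω = ω} = Nat.card Z := by
    rw [Nat.card_eq_fintype_card, ← Fintype.card_coe]
    refine Fintype.card_congr (Equiv.subtypeEquivRight fun x => ?_)
    simp [hmemZ]
  refine count_main (Γ := Γ) (Ω := Ω) o (Nat.card Z) q' e (by rwa [Nat.card_eq_fintype_card] at hΩ)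
    ?_ hzc ?_ ?_ ?_ hmove
  · intro g
    rcases htri g with h | h | h
    · exact Or.inl h
    · exact Or.inr (Or.inl ((fx_eq_one_iff g).2 h))
    · exact Or.inr (Or.inr (fx_eq_two_of g h))
  · rw [← hq', ← hB, Nat.card_eq_fintype_card]
    unfold st
    rw [← Fintype.card_coe]
    refine Fintype.card_congr (Equiv.subtypeEquivRight fun x => ?_)
    simp [MulAction.mem_stabilizer_iff]
  · rw [← hq', ← hzc]
    have hKc : Nat.card K = #{g : Γ | g ∈ K} := by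
      rw [Nat.card_eq_fintype_card, ← Fintype.card_coe]
      refine Fintype.card_congr (Equiv.subtypeEquivRight fun x => ?_)
      simp
    rw [hKc, ← Finset.card_union_of_disjoint]
    · congr 1
      ext g
      simp only [mem_union, mem_filter, mem_univ, true_and, hK, fx_eq_one_iff]
      constructor
      · rintro (h | h)
        · exact ⟨h.1, Or.inr h.2⟩
        · exact ⟨h o, Or.inl h⟩
      · rintro ⟨h1, h | h⟩
        · exact Or.inr h
        · exact Or.inl ⟨h1, h⟩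
    · rw [Finset.disjoint_left]
      intro g hg hg'
      simp only [mem_filter, mem_univ, true_and, fx_eq_one_iff] at hg hg'
      exact two_pts g hg' hg.2
  · intro g hg ω hω
    rw [fx_eq_one_iff] at hg
    obtain ⟨g₀, hg₀⟩ := hg₀
    have hg₀' : ∃! ω : Ω, g₀ • ω = ω := ⟨o, (hg₀ o).2 rfl, fun y hy => (hg₀ y).1 hy⟩
    obtain ⟨ω', hω', hfix⟩ := exists_fixed_mem_orbit p o g₀ g hg₀ (hpow g₀ hg₀') (hpow g hg)
    have : ω = ω' := hg.unique hω hfix
    rw [this, mem_orb]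
    exact hω'

end Fermat.Agent.S56.V.Count
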